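import Mathlib.Data.Nat.Factorization.Basic
import Mathlib.Algebra.GCDMonoid.Nat
import Mathlib.NumberTheory.FLT.Basic
import Mathlib.Tactic

/-!
# Hurwitz's equations `x ^ m * y ^ n + y ^ m * z ^ n + z ^ m * x ^ n = 0` (helper56)

A. Hurwitz, *Über die diophantische Gleichung `x³y + y³z + z³x = 0`*, Math. Ann. 65 (1908).
For coprime `m`, `n` and `d = m² - m n + n²` (an odd number) the equation
`x ^ m * y ^ n + y ^ m * z ^ n + z ^ m * x ^ n = 0` has a solution in non-zero integers if and only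
if Fermat's equation `u ^ d + v ^ d + w ^ d = 0` has one. Everything in this file is elementary
(Mathlib only); `Hurwitz/Main.lean` adds Fermat's Last Theorem.
-/

set_option autoImplicit false

namespace Fermat.Agent.Cor.Hurwitz

/-- The exponent of Fermat's equation attached to `(m, n)`: `m² - m n + n²`. -/
def expo (m n : ℕ) : ℕ := m ^ 2 + n ^ 2 - m * n

theorem mul_le_sq_add_sq (m n : ℕ) : m * n ≤ m ^ 2 + n ^ 2 := by
  have h : (m : ℤ) * n ≤ (m : ℤ) ^ 2 + (n : ℤ) ^ 2 := by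
    nlinarith [sq_nonneg ((m : ℤ) - n), sq_nonneg ((m : ℤ) + n)]
  exact_mod_cast h

theorem expo_add (m n : ℕ) : expo m n + m * n = m ^ 2 + n ^ 2 :=
  Nat.sub_add_cancel (mul_le_sq_add_sq m n)

theorem expo_comm (m n : ℕ) : expo m n = expo n m := by
  rw [expo, expo, add_comm, mul_comm]

theorem odd_expo {m n : ℕ} (h : m.Coprime n) : Odd (expo m n) := by
  have h1 := expo_add m n
  rw [← Nat.not_even_iff_odd]
  intro h2
  rcases Nat.even_or_odd m with hm | hm <;> rcases Nat.even_or_odd n with hn | hn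
  · have := Nat.dvd_gcd hm.two_dvd hn.two_dvd
    rw [h] at this
    omega
  · have h3 : Even (expo m n + m * n) := h2.add (hm.mul_right n)
    rw [h1, Nat.even_add] at h3
    have h4 : Even (n ^ 2) := h3.1 (by rw [Nat.even_pow]; exact ⟨hm, two_ne_zero⟩)
    rw [Nat.even_pow] at h4
    exact Nat.not_even_iff_odd.2 hn h4.1
  · have h3 : Even (expo m n + m * n) := h2.add (hn.mul_left m)
    rw [h1, Nat.even_add] at h3
    have h4 : Even (m ^ 2) := h3.2 (by rw [Nat.even_pow]; exact ⟨hn, two_ne_zero⟩)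
    rw [Nat.even_pow] at h4
    exact Nat.not_even_iff_odd.2 hm h4.1
  · have h3 : Even (m ^ 2 + n ^ 2) := (hm.pow).add_odd hn.pow
    rw [← h1, Nat.even_add] at h3
    have h4 := h3.1 h2
    rw [Nat.even_mul] at h4
    rcases h4 with h4 | h4
    · exact Nat.not_even_iff_odd.2 hm h4
    · exact Nat.not_even_iff_odd.2 hn h4

theorem three_le_expo {m n : ℕ} (h : 3 ≤ m + n) : 3 ≤ expo m n := by
  have h1 := expo_add m n
  by_contra hlt
  have h2 : expo m n ≤ 2 := by omega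
  have h3 : (m : ℤ) ^ 2 + n ^ 2 ≤ 2 + m * n := by
    have : m ^ 2 + n ^ 2 ≤ 2 + m * n := by omega
    exact_mod_cast this
  have h4 : (3 : ℤ) ≤ m + n := by exact_mod_cast h
  nlinarith [sq_nonneg ((m : ℤ) - n)]

/-! ### Valuations -/

/-- In a solution with `p ∤ z` the orders `α`, `β` of `x`, `y` at `p` satisfy `m β = n α`. -/
theorem val_eq {m n : ℕ} (hm : m ≠ 0) (hn : n ≠ 0) {p : ℕ} (hp : p.Prime) {x y z : ℤ}
    (hx : ¬ (p : ℤ) ∣ x) (hy : ¬ (p : ℤ) ∣ y) (hz : ¬ (p : ℤ) ∣ z) {α β : ℕ}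
    (h : ((p : ℤ) ^ α * x) ^ m * ((p : ℤ) ^ β * y) ^ n + ((p : ℤ) ^ β * y) ^ m * z ^ n +
      z ^ m * ((p : ℤ) ^ α * x) ^ n = 0) : m * β = n * α := by
  have hp' : Prime (p : ℤ) := Nat.prime_iff_prime_int.1 hp
  have hm1 : 1 ≤ m := Nat.one_le_iff_ne_zero.2 hm
  have hn1 : 1 ≤ n := Nat.one_le_iff_ne_zero.2 hn
  have hp0 : (p : ℤ) ≠ 0 := hp'.ne_zero
  have key : ∀ {a b : ℤ} {k : ℕ} (i j : ℕ), ¬ (p : ℤ) ∣ a → ¬ (p : ℤ) ∣ b →
      ¬ (p : ℤ) ^ (k + 1) ∣ (p : ℤ) ^ k * (a ^ i * b ^ j) := by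
    intro a b k i j ha hb hd
    rw [pow_succ, mul_dvd_mul_iff_left (pow_ne_zero k hp0)] at hd
    rcases hp'.dvd_or_dvd hd with h1 | h1
    · exact ha (hp'.dvd_of_dvd_pow h1)
    · exact hb (hp'.dvd_of_dvd_pow h1)
  have e1 : ((p : ℤ) ^ α * x) ^ m * ((p : ℤ) ^ β * y) ^ n =
      (p : ℤ) ^ (m * α + n * β) * (x ^ m * y ^ n) := by
    rw [mul_pow, mul_pow, ← pow_mul, ← pow_mul, pow_add, mul_comm α m, mul_comm β n]
    ring
  have e2 : ((p : ℤ) ^ β * y) ^ m * z ^ n = (p : ℤ) ^ (m * β) * (y ^ m * z ^ n) := by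
    rw [mul_pow, ← pow_mul, mul_comm β m]
    ring
  have e3 : z ^ m * ((p : ℤ) ^ α * x) ^ n = (p : ℤ) ^ (n * α) * (z ^ m * x ^ n) := by
    rw [mul_pow, ← pow_mul, mul_comm α n]
    ring
  rw [e1, e2, e3] at h
  rcases lt_trichotomy (m * β) (n * α) with h1 | h1 | h1
  · exfalso
    have h2 : m * β < m * α + n * β := by
      by_contra h3
      push Not at h3
      have h4 : n * (m * α + n * β) ≤ n * (m * β) := Nat.mul_le_mul_left n h3
      have h5 : m * (m * β) < m * (n * α) := Nat.mul_lt_mul_of_pos_left h1 hm1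
      have h6 := Nat.mul_le_mul_left β (mul_le_sq_add_sq m n)
      nlinarith
    apply key (k := m * β) m n hy hz
    have h7 : (p : ℤ) ^ (m * β) * (y ^ m * z ^ n) =
        -((p : ℤ) ^ (m * α + n * β) * (x ^ m * y ^ n)) - (p : ℤ) ^ (n * α) * (z ^ m * x ^ n) := by
      linear_combination h
    rw [h7]
    exact dvd_sub ((Dvd.dvd.mul_right (pow_dvd_pow _ h2) _).neg_right)
      (Dvd.dvd.mul_right (pow_dvd_pow _ h1) _)
  · exact h1
  · exfalso
    have h2 : n * α < m * α + n * β := by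
      by_contra h3
      push Not at h3
      have h4 : m * (m * α + n * β) ≤ m * (n * α) := Nat.mul_le_mul_left m h3
      have h5 : n * (n * α) < n * (m * β) := Nat.mul_lt_mul_of_pos_left h1 hn1
      have h6 := Nat.mul_le_mul_left α (mul_le_sq_add_sq m n)
      nlinarith
    apply key (k := n * α) m n hz hx
    have h7 : (p : ℤ) ^ (n * α) * (z ^ m * x ^ n) =
        -((p : ℤ) ^ (m * α + n * β) * (x ^ m * y ^ n)) - (p : ℤ) ^ (m * β) * (y ^ m * z ^ n) := by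
      linear_combination h
    rw [h7]
    exact dvd_sub ((Dvd.dvd.mul_right (pow_dvd_pow _ h2) _).neg_right)
      (Dvd.dvd.mul_right (pow_dvd_pow _ h1) _)

/-- The same with `Nat.factorization`. -/
theorem factorization_eq {m n : ℕ} (hm : m ≠ 0) (hn : n ≠ 0) {x y z : ℤ} (hx : x ≠ 0) (hy : y ≠ 0)
    (h : x ^ m * y ^ n + y ^ m * z ^ n + z ^ m * x ^ n = 0) {p : ℕ} (hp : p.Prime)
    (hz : ¬ p ∣ z.natAbs) :
    m * y.natAbs.factorization p = n * x.natAbs.factorization p := by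
  obtain ⟨a, ha, ha'⟩ : ∃ a : ℤ, x = (p : ℤ) ^ x.natAbs.factorization p * a ∧ ¬ (p : ℤ) ∣ a := by
    obtain ⟨a, ha⟩ : (p : ℤ) ^ x.natAbs.factorization p ∣ x := by
      rw [← Int.dvd_natAbs, ← Nat.cast_pow]
      exact_mod_cast Nat.ordProj_dvd x.natAbs p
    refine ⟨a, ha, fun hd => ?_⟩
    obtain ⟨b, hb⟩ := hd
    apply Nat.pow_succ_factorization_not_dvd (n := x.natAbs) (Int.natAbs_ne_zero.2 hx) hp
    rw [← Int.natCast_dvd_natCast, Int.dvd_natAbs]
    refine ⟨b, ?_⟩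
    conv_lhs => rw [ha, hb]
    push_cast
    ring
  obtain ⟨b, hb, hb'⟩ : ∃ b : ℤ, y = (p : ℤ) ^ y.natAbs.factorization p * b ∧ ¬ (p : ℤ) ∣ b := by
    obtain ⟨a, ha⟩ : (p : ℤ) ^ y.natAbs.factorization p ∣ y := by
      rw [← Int.dvd_natAbs, ← Nat.cast_pow]
      exact_mod_cast Nat.ordProj_dvd y.natAbs p
    refine ⟨a, ha, fun hd => ?_⟩
    obtain ⟨b, hb⟩ := hd
    apply Nat.pow_succ_factorization_not_dvd (n := y.natAbs) (Int.natAbs_ne_zero.2 hy) hp
    rw [← Int.natCast_dvd_natCast, Int.dvd_natAbs]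
    refine ⟨b, ?_⟩
    conv_lhs => rw [ha, hb]
    push_cast
    ring
  have hz' : ¬ (p : ℤ) ∣ z := fun hd => hz (by
    rw [← Int.dvd_natAbs] at hd
    exact_mod_cast hd)
  refine val_eq hm hn hp ha' hb' hz' ?_
  rw [← ha, ← hb]
  exact h

/-! ### The substitution -/

/-- The part of `X` prime to `Z`, with the exponents divided by `m`. -/
noncomputable def part (m X Z : ℕ) : ℕ →₀ ℕ :=
  Finsupp.onFinset X.primeFactors (fun p => if p ∣ Z then 0 else X.factorization p / m) (by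
    intro p hp
    split_ifs at hp with h
    · exact absurd rfl hp
    · rw [← Nat.support_factorization, Finsupp.mem_support_iff]
      intro h0
      rw [h0, Nat.zero_div] at hp
      exact hp rfl)

/-- The number with exponents `part m X Z`. -/
noncomputable def root (m X Z : ℕ) : ℕ := (part m X Z).prod (· ^ ·)

theorem prime_of_mem_support {m X Z p : ℕ} (hp : p ∈ (part m X Z).support) : p.Prime :=
  Nat.prime_of_mem_primeFactors (Finsupp.support_onFinset_subset hp)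

theorem root_ne_zero (m X Z : ℕ) : root m X Z ≠ 0 := by
  rw [root, Finsupp.prod]
  exact Finset.prod_ne_zero_iff.2 fun p hp => pow_ne_zero _ (prime_of_mem_support hp).ne_zero

theorem factorization_root (m X Z p : ℕ) :
    (root m X Z).factorization p = if p ∣ Z then 0 else X.factorization p / m := by
  rw [root, Nat.prod_pow_factorization_eq_self fun p hp => prime_of_mem_support hp]
  rfl

/-- A pair `(a, b)` with `m b = n a`, `m`, `n` coprime, is `(m t, n t)`, `t = a / m`. -/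
theorem eq_mul_of_mul_eq {m n a b : ℕ} (hm : m ≠ 0) (hmn : m.Coprime n) (h : m * b = n * a) :
    a = m * (a / m) ∧ b = n * (a / m) := by
  have h1 : m ∣ a := hmn.dvd_of_dvd_mul_left ⟨b, h.symm⟩
  obtain ⟨t, rfl⟩ := h1
  rw [Nat.mul_div_cancel_left t (Nat.pos_of_ne_zero hm)]
  refine ⟨rfl, ?_⟩
  have h2 : m * b = m * (n * t) := by rw [h]; ring
  exact Nat.eq_of_mul_eq_mul_left (Nat.pos_of_ne_zero hm) h2

/-- The structure of the primitive solutions: `|x| = u ^ m * w ^ n` (the two other coordinates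
follow by the cyclic symmetry). -/
theorem natAbs_eq {m n : ℕ} (hm : m ≠ 0) (hn : n ≠ 0) (hmn : m.Coprime n) {x y z : ℤ} (hx : x ≠ 0)
    (hy : y ≠ 0) (hz : z ≠ 0) (h : x ^ m * y ^ n + y ^ m * z ^ n + z ^ m * x ^ n = 0)
    (hgcd : ∀ p : ℕ, p.Prime → p ∣ x.natAbs → p ∣ y.natAbs → ¬ p ∣ z.natAbs) :
    x.natAbs = root m x.natAbs z.natAbs ^ m * root m z.natAbs y.natAbs ^ n := by
  have hx' : x.natAbs ≠ 0 := Int.natAbs_ne_zero.2 hx
  have hr1 := root_ne_zero m x.natAbs z.natAbs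
  have hr3 := root_ne_zero m z.natAbs y.natAbs
  refine Nat.eq_of_factorization_eq hx' (mul_ne_zero (pow_ne_zero _ hr1) (pow_ne_zero _ hr3)) ?_
  intro p
  by_cases hp : p.Prime
  swap
  · rw [Nat.factorization_eq_zero_of_not_prime _ hp, Nat.factorization_eq_zero_of_not_prime _ hp]
  rw [Nat.factorization_mul (pow_ne_zero _ hr1) (pow_ne_zero _ hr3), Nat.factorization_pow,
    Nat.factorization_pow, Finsupp.add_apply, Finsupp.smul_apply, Finsupp.smul_apply,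
    factorization_root, factorization_root, smul_eq_mul, smul_eq_mul]
  by_cases hpz : p ∣ z.natAbs
  · rw [if_pos hpz, mul_zero, zero_add]
    by_cases hpy : p ∣ y.natAbs
    · rw [if_pos hpy, mul_zero]
      refine Nat.factorization_eq_zero_of_not_dvd fun hpx => ?_
      exact hgcd p hp hpx hpy hpz
    · rw [if_neg hpy]
      have h1 : m * x.natAbs.factorization p = n * z.natAbs.factorization p :=
        factorization_eq hm hn hz hx (by linear_combination h) hp hpy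
      exact (eq_mul_of_mul_eq hm hmn h1).2
  · rw [if_neg hpz]
    have h1 : m * y.natAbs.factorization p = n * x.natAbs.factorization p :=
      factorization_eq hm hn hx hy h hp hpz
    have h2 : z.natAbs.factorization p = 0 := Nat.factorization_eq_zero_of_not_dvd hpz
    rw [h2, Nat.zero_div, ite_self, mul_zero, add_zero]
    exact (eq_mul_of_mul_eq hm hmn h1).1

theorem dvd_root {m X Z p : ℕ} (hp : p.Prime) (h : p ∣ root m X Z) : p ∣ X ∧ ¬ p ∣ Z := by
  have h1 := (hp.dvd_iff_one_le_factorization (root_ne_zero m X Z)).1 h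
  rw [factorization_root] at h1
  split_ifs at h1 with h2
  · omega
  · refine ⟨by_contra fun h3 => ?_, h2⟩
    rw [Nat.factorization_eq_zero_of_not_dvd h3, Nat.zero_div] at h1
    omega

/-! ### The two equations -/

/-- The substitution `(u, v, w) ↦ (u ^ m * w ^ n, v ^ m * u ^ n, w ^ m * v ^ n)`. -/
theorem subst_eq {R : Type*} [CommRing R] (m n : ℕ) (u v w : R) :
    (u ^ m * w ^ n) ^ m * (v ^ m * u ^ n) ^ n + (v ^ m * u ^ n) ^ m * (w ^ m * v ^ n) ^ n +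
      (w ^ m * v ^ n) ^ m * (u ^ m * w ^ n) ^ n =
    (u * v * w) ^ (m * n) * (u ^ expo m n + v ^ expo m n + w ^ expo m n) := by
  have key : ∀ a b c : R, (a ^ m * c ^ n) ^ m * (b ^ m * a ^ n) ^ n =
      (a * b * c) ^ (m * n) * a ^ expo m n := by
    intro a b c
    have h1 : a ^ (m * n) * a ^ expo m n = (a ^ m) ^ m * (a ^ n) ^ n := by
      rw [← pow_add, add_comm (m * n), expo_add, ← pow_mul, ← pow_mul, ← pow_add, sq, sq]
    calc (a ^ m * c ^ n) ^ m * (b ^ m * a ^ n) ^ n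
        = ((a ^ m) ^ m * (a ^ n) ^ n) * ((b ^ m) ^ n * (c ^ n) ^ m) := by
          rw [mul_pow, mul_pow]; ring
      _ = (a * b * c) ^ (m * n) * a ^ expo m n := by
          rw [← h1, ← pow_mul, ← pow_mul, mul_comm n m, mul_pow, mul_pow]; ring
  have h1 := key u v w
  have h2 := key v w u
  have h3 := key w u v
  rw [show v * w * u = u * v * w by ring] at h2
  rw [show w * u * v = u * v * w by ring] at h3
  rw [h1, h2, h3]
  ring

/-- **Hurwitz 1908**, structure of the solutions: every primitive solution in non-zero integers of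
`x ^ m * y ^ n + y ^ m * z ^ n + z ^ m * x ^ n = 0` (`m`, `n` coprime and positive) is
`± (u ^ m * w ^ n, v ^ m * u ^ n, w ^ m * v ^ n)` with pairwise coprime non-zero integers `u`, `v`,
`w` such that `u ^ d + v ^ d + w ^ d = 0`, `d = m² - m n + n²`. -/
theorem exists_param {m n : ℕ} (hm : m ≠ 0) (hn : n ≠ 0) (hmn : m.Coprime n) {x y z : ℤ}
    (hx : x ≠ 0) (hy : y ≠ 0) (hz : z ≠ 0)
    (h : x ^ m * y ^ n + y ^ m * z ^ n + z ^ m * x ^ n = 0)
    (hgcd : ∀ p : ℕ, p.Prime → p ∣ x.natAbs → p ∣ y.natAbs → ¬ p ∣ z.natAbs) :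
    ∃ u v w ε : ℤ, u ≠ 0 ∧ v ≠ 0 ∧ w ≠ 0 ∧ IsCoprime u v ∧ IsCoprime v w ∧ IsCoprime w u ∧
      (ε = 1 ∨ ε = -1) ∧ x = ε * (u ^ m * w ^ n) ∧ y = ε * (v ^ m * u ^ n) ∧
      z = ε * (w ^ m * v ^ n) ∧ u ^ expo m n + v ^ expo m n + w ^ expo m n = 0 := by
  have hy1 : y ^ m * z ^ n + z ^ m * x ^ n + x ^ m * y ^ n = 0 := by linear_combination h
  have hz1 : z ^ m * x ^ n + x ^ m * y ^ n + y ^ m * z ^ n = 0 := by linear_combination h
  have ex := natAbs_eq hm hn hmn hx hy hz h hgcd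
  have ey := natAbs_eq hm hn hmn hy hz hx hy1 fun p hp h1 h2 h3 => hgcd p hp h3 h1 h2
  have ez := natAbs_eq hm hn hmn hz hx hy hz1 fun p hp h1 h2 h3 => hgcd p hp h2 h3 h1
  set u : ℕ := root m x.natAbs z.natAbs with hu
  set v : ℕ := root m y.natAbs x.natAbs with hv
  set w : ℕ := root m z.natAbs y.natAbs with hw
  have hu0 : u ≠ 0 := root_ne_zero _ _ _
  have hv0 : v ≠ 0 := root_ne_zero _ _ _
  have hw0 : w ≠ 0 := root_ne_zero _ _ _
  have huv : Nat.Coprime u v := Nat.coprime_of_dvd fun p hp h1 h2 =>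
    (dvd_root hp h2).2 (dvd_root hp h1).1
  have hvw : Nat.Coprime v w := Nat.coprime_of_dvd fun p hp h1 h2 =>
    (dvd_root hp h2).2 (dvd_root hp h1).1
  have hwu : Nat.Coprime w u := Nat.coprime_of_dvd fun p hp h1 h2 =>
    (dvd_root hp h2).2 (dvd_root hp h1).1
  -- signs
  have sq1 : ∀ a : ℤ, a ≠ 0 → a.sign = 1 ∨ a.sign = -1 := fun a ha => by
    rcases lt_or_gt_of_ne ha with h1 | h1
    · exact Or.inr (Int.sign_eq_neg_one_of_neg h1)
    · exact Or.inl (Int.sign_eq_one_of_pos h1)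
  have unit_pow : ∀ (s : ℤ) (k : ℕ), (s = 1 ∨ s = -1) → (s ^ k = 1 ∨ s ^ k = -1) := by
    rintro s k (rfl | rfl)
    · exact Or.inl (one_pow k)
    · exact neg_one_pow_eq_or ℤ k
  have unit_mul : ∀ s t : ℤ, (s = 1 ∨ s = -1) → (t = 1 ∨ t = -1) → (s * t = 1 ∨ s * t = -1) := by
    rintro s t (rfl | rfl) (rfl | rfl) <;> simp
  set s₁ := x.sign with hs1
  set s₂ := y.sign with hs2
  set s₃ := z.sign with hs3
  have t1 := sq1 x hx
  have t2 := sq1 y hy
  have t3 := sq1 z hz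
  rw [← hs1] at t1
  rw [← hs2] at t2
  rw [← hs3] at t3
  have ex' : x = s₁ * ((u : ℤ) ^ m * (w : ℤ) ^ n) := by
    have h1 : (x.natAbs : ℤ) = (u : ℤ) ^ m * (w : ℤ) ^ n := by
      rw [ex]; push_cast; rfl
    rw [← h1, hs1, Int.sign_mul_natAbs]
  have ey' : y = s₂ * ((v : ℤ) ^ m * (u : ℤ) ^ n) := by
    have h1 : (y.natAbs : ℤ) = (v : ℤ) ^ m * (u : ℤ) ^ n := by
      rw [ey]; push_cast; rfl
    rw [← h1, hs2, Int.sign_mul_natAbs]
  have ez' : z = s₃ * ((w : ℤ) ^ m * (v : ℤ) ^ n) := by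
    have h1 : (z.natAbs : ℤ) = (w : ℤ) ^ m * (v : ℤ) ^ n := by
      rw [ez]; push_cast; rfl
    rw [← h1, hs3, Int.sign_mul_natAbs]
  obtain ⟨k, hk⟩ := odd_expo hmn
  have hsum : m * m + n * n = 2 * k + 1 + m * n := by
    have := expo_add m n
    rw [hk] at this
    rw [this, sq, sq]
  have hpow : ∀ s : ℤ, (s = 1 ∨ s = -1) → (s ^ m) ^ m * (s ^ n) ^ n = s ^ (m * n) * s := by
    intro s hs
    have h2 : s ^ 2 = 1 := by rcases hs with rfl | rfl <;> norm_num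
    rw [← pow_mul, ← pow_mul, ← pow_add, hsum, pow_add, pow_add, pow_mul, h2, one_pow, pow_one]
    ring
  -- the identity of the coordinates
  have coord : ∀ a b c : ℤ, ∀ r t : ℤ, (a = 1 ∨ a = -1) →
      (a ^ m * b ^ n * r) ^ m * (c ^ m * a ^ n * t) ^ n =
        (a * b * c) ^ (m * n) * (a * (r ^ m * t ^ n)) := by
    intro a b c r t ha
    calc (a ^ m * b ^ n * r) ^ m * (c ^ m * a ^ n * t) ^ n
        = ((a ^ m) ^ m * (a ^ n) ^ n) * ((b ^ n) ^ m * (c ^ m) ^ n) * (r ^ m * t ^ n) := by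
          simp only [mul_pow]; ring
      _ = (a * b * c) ^ (m * n) * (a * (r ^ m * t ^ n)) := by
          rw [hpow a ha, ← pow_mul, ← pow_mul, mul_comm n m]
          simp only [mul_pow]; ring
  set ε : ℤ := (s₁ * s₂ * s₃) ^ (m * n) with hε
  have hε1 : ε = 1 ∨ ε = -1 := unit_pow _ _ (unit_mul _ _ (unit_mul _ _ t1 t2) t3)
  have hεε : ε * ε = 1 := by rcases hε1 with h1 | h1 <;> rw [h1] <;> norm_num
  have ne0 : ∀ s : ℤ, (s = 1 ∨ s = -1) → s ≠ 0 := by rintro s (rfl | rfl) <;> norm_num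
  have c1 := coord s₁ s₂ s₃ u w t1
  have c2 := coord s₂ s₃ s₁ v u t2
  have c3 := coord s₃ s₁ s₂ w v t3
  rw [← ex', show s₁ * s₂ * s₃ = s₁ * s₂ * s₃ from rfl, ← hε] at c1
  rw [← ey', show s₂ * s₃ * s₁ = s₁ * s₂ * s₃ by ring, ← hε] at c2
  rw [← ez', show s₃ * s₁ * s₂ = s₁ * s₂ * s₃ by ring, ← hε] at c3
  have q1 := unit_mul _ _ (unit_pow s₁ m t1) (unit_pow s₂ n t2)
  have q2 := unit_mul _ _ (unit_pow s₂ m t2) (unit_pow s₃ n t3)
  have q3 := unit_mul _ _ (unit_pow s₃ m t3) (unit_pow s₁ n t1)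
  have isu : ∀ s : ℤ, (s = 1 ∨ s = -1) → IsUnit s := by
    rintro s (rfl | rfl)
    · exact isUnit_one
    · exact isUnit_one.neg
  have cop : ∀ (s t : ℤ) (a b : ℕ), (s = 1 ∨ s = -1) → (t = 1 ∨ t = -1) → Nat.Coprime a b →
      IsCoprime (s * (a : ℤ)) (t * (b : ℤ)) := fun s t a b hs ht hab =>
    (isCoprime_mul_unit_left_left (isu s hs) _ _).2
      ((isCoprime_mul_unit_left_right (isu t ht) _ _).2 (Nat.isCoprime_iff_coprime.2 hab))
  set U : ℤ := s₁ ^ m * s₂ ^ n * (u : ℤ) with hU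
  set V : ℤ := s₂ ^ m * s₃ ^ n * (v : ℤ) with hV
  set W : ℤ := s₃ ^ m * s₁ ^ n * (w : ℤ) with hW
  have U0 : U ≠ 0 := mul_ne_zero (ne0 _ q1) (by exact_mod_cast hu0)
  have V0 : V ≠ 0 := mul_ne_zero (ne0 _ q2) (by exact_mod_cast hv0)
  have W0 : W ≠ 0 := mul_ne_zero (ne0 _ q3) (by exact_mod_cast hw0)
  have x1 : x = ε * (U ^ m * W ^ n) := by rw [c1, ← mul_assoc, hεε, one_mul]
  have y1 : y = ε * (V ^ m * U ^ n) := by rw [c2, ← mul_assoc, hεε, one_mul]
  have z1 : z = ε * (W ^ m * V ^ n) := by rw [c3, ← mul_assoc, hεε, one_mul]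
  refine ⟨U, V, W, ε, U0, V0, W0, cop _ _ _ _ q1 q2 huv, cop _ _ _ _ q2 q3 hvw,
    cop _ _ _ _ q3 q1 hwu, hε1, x1, y1, z1, ?_⟩
  have h1 := h
  rw [x1, y1, z1] at h1
  have h2 : ε ^ (m + n) * ((U * V * W) ^ (m * n) *
      (U ^ expo m n + V ^ expo m n + W ^ expo m n)) = 0 := by
    rw [← subst_eq, ← h1, pow_add]
    simp only [mul_pow]
    ring
  rcases mul_eq_zero.1 h2 with h3 | h3
  · exact absurd h3 (pow_ne_zero _ (ne0 _ hε1))
  · rcases mul_eq_zero.1 h3 with h4 | h4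
    · exact absurd h4 (pow_ne_zero _ (mul_ne_zero (mul_ne_zero U0 V0) W0))
    · exact h4

/-- Division by the greatest common divisor. -/
theorem exists_primitive {x y z : ℤ} (hx : x ≠ 0) : ∃ g x' y' z' : ℤ, g ≠ 0 ∧ x = g * x' ∧
    y = g * y' ∧ z = g * z' ∧
    ∀ p : ℕ, p.Prime → p ∣ x'.natAbs → p ∣ y'.natAbs → ¬ p ∣ z'.natAbs := by
  induction hN : x.natAbs using Nat.strong_induction_on generalizing x y z with
  | _ N ih =>
  by_cases hp : ∃ p : ℕ, p.Prime ∧ p ∣ x.natAbs ∧ p ∣ y.natAbs ∧ p ∣ z.natAbs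
  · obtain ⟨p, hp, h1, h2, h3⟩ := hp
    rw [← Int.natCast_dvd] at h1 h2 h3
    obtain ⟨a, rfl⟩ := h1
    obtain ⟨b, rfl⟩ := h2
    obtain ⟨c, rfl⟩ := h3
    have ha : a ≠ 0 := right_ne_zero_of_mul hx
    have hlt : a.natAbs < N := by
      rw [← hN, Int.natAbs_mul, Int.natAbs_natCast]
      exact lt_mul_left (Int.natAbs_pos.2 ha) hp.one_lt
    obtain ⟨g, x', y', z', hg, e1, e2, e3, h⟩ := ih _ hlt (x := a) (y := b) (z := c) ha rfl
    refine ⟨p * g, x', y', z', mul_ne_zero (by exact_mod_cast hp.ne_zero) hg, ?_, ?_, ?_, h⟩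
    · rw [mul_assoc, ← e1]
    · rw [mul_assoc, ← e2]
    · rw [mul_assoc, ← e3]
  · refine ⟨1, x, y, z, one_ne_zero, (one_mul x).symm, (one_mul y).symm, (one_mul z).symm, ?_⟩
    intro p hp1 h1 h2 h3
    exact hp ⟨p, hp1, h1, h2, h3⟩

/-- The equation is homogeneous. -/
theorem homog {R : Type*} [CommRing R] (m n : ℕ) (g x y z : R) :
    (g * x) ^ m * (g * y) ^ n + (g * y) ^ m * (g * z) ^ n + (g * z) ^ m * (g * x) ^ n =
      g ^ (m + n) * (x ^ m * y ^ n + y ^ m * z ^ n + z ^ m * x ^ n) := by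
  rw [pow_add]
  simp only [mul_pow]
  ring

/-- A solution of Hurwitz's equation gives one of Fermat's equation. -/
theorem exists_fermat {m n : ℕ} (hmn : m.Coprime n) {x y z : ℤ} (hx : x ≠ 0) (hy : y ≠ 0)
    (hz : z ≠ 0) (h : x ^ m * y ^ n + y ^ m * z ^ n + z ^ m * x ^ n = 0) :
    ∃ u v w : ℤ, u ≠ 0 ∧ v ≠ 0 ∧ w ≠ 0 ∧ u ^ expo m n + v ^ expo m n + w ^ expo m n = 0 := by
  rcases eq_or_ne m 0 with rfl | hm
  · obtain rfl : n = 1 := by simpa using hmn
    exact ⟨x, y, z, hx, hy, hz, by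
      simp only [expo, pow_zero, one_mul, pow_one] at h ⊢
      linear_combination h⟩
  rcases eq_or_ne n 0 with rfl | hn
  · obtain rfl : m = 1 := by simpa using hmn
    exact ⟨x, y, z, hx, hy, hz, by
      simp only [expo, pow_zero, mul_one, pow_one] at h ⊢
      linear_combination h⟩
  obtain ⟨g, x', y', z', hg, rfl, rfl, rfl, hprim⟩ := exists_primitive (y := y) (z := z) hx
  rw [homog] at h
  have h' : x' ^ m * y' ^ n + y' ^ m * z' ^ n + z' ^ m * x' ^ n = 0 :=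
    (mul_eq_zero.1 h).resolve_left (pow_ne_zero _ hg)
  obtain ⟨u, v, w, _, hu, hv, hw, _, _, _, _, _, _, _, h4⟩ := exists_param hm hn hmn
    (right_ne_zero_of_mul hx) (right_ne_zero_of_mul hy) (right_ne_zero_of_mul hz) h' hprim
  exact ⟨u, v, w, hu, hv, hw, h4⟩

/-- A solution of Fermat's equation gives one of Hurwitz's equation (any `m`, `n`). -/
theorem exists_hurwitz {m n : ℕ} {u v w : ℤ} (hu : u ≠ 0) (hv : v ≠ 0)
    (hw : w ≠ 0) (h : u ^ expo m n + v ^ expo m n + w ^ expo m n = 0) :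
    ∃ x y z : ℤ, x ≠ 0 ∧ y ≠ 0 ∧ z ≠ 0 ∧ x ^ m * y ^ n + y ^ m * z ^ n + z ^ m * x ^ n = 0 :=
  ⟨u ^ m * w ^ n, v ^ m * u ^ n, w ^ m * v ^ n,
    mul_ne_zero (pow_ne_zero _ hu) (pow_ne_zero _ hw),
    mul_ne_zero (pow_ne_zero _ hv) (pow_ne_zero _ hu),
    mul_ne_zero (pow_ne_zero _ hw) (pow_ne_zero _ hv), by rw [subst_eq, h, mul_zero]⟩

/-- **Hurwitz 1908**: for coprime `m`, `n` the equation
`x ^ m * y ^ n + y ^ m * z ^ n + z ^ m * x ^ n = 0` has a solution in non-zero integers if and only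
if `u ^ d + v ^ d + w ^ d = 0`, `d = m² - m n + n²`, has one. -/
theorem exists_iff {m n : ℕ} (hmn : m.Coprime n) :
    (∃ x y z : ℤ, x ≠ 0 ∧ y ≠ 0 ∧ z ≠ 0 ∧ x ^ m * y ^ n + y ^ m * z ^ n + z ^ m * x ^ n = 0) ↔
      ∃ u v w : ℤ, u ≠ 0 ∧ v ≠ 0 ∧ w ≠ 0 ∧ u ^ expo m n + v ^ expo m n + w ^ expo m n = 0 :=
  ⟨fun ⟨_, _, _, hx, hy, hz, h⟩ => exists_fermat hmn hx hy hz h,
    fun ⟨_, _, _, hu, hv, hw, h⟩ => exists_hurwitz hu hv hw h⟩

/-- For odd `d` the two usual forms of Fermat's equation are equivalent. -/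
theorem fermatLastTheoremFor_iff_of_odd {d : ℕ} (hd : Odd d) :
    FermatLastTheoremFor d ↔
      ¬ ∃ u v w : ℤ, u ≠ 0 ∧ v ≠ 0 ∧ w ≠ 0 ∧ u ^ d + v ^ d + w ^ d = 0 := by
  rw [fermatLastTheoremFor_iff_int]
  constructor
  · rintro h ⟨u, v, w, hu, hv, hw, h1⟩
    refine h u v (-w) hu hv (neg_ne_zero.2 hw) ?_
    rw [hd.neg_pow]
    linear_combination h1
  · intro h u v w hu hv hw h1
    refine h ⟨u, v, -w, hu, hv, neg_ne_zero.2 hw, ?_⟩
    rw [hd.neg_pow]
    linear_combination h1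

/-- **Hurwitz 1908**: for coprime `m`, `n` Fermat's Last Theorem for the exponent `m² - m n + n²` is
equivalent to the insolubility of `x ^ m * y ^ n + y ^ m * z ^ n + z ^ m * x ^ n = 0` in non-zero
integers. -/
theorem fermatLastTheoremFor_iff {m n : ℕ} (hmn : m.Coprime n) :
    FermatLastTheoremFor (expo m n) ↔ ∀ x y z : ℤ, x ≠ 0 → y ≠ 0 → z ≠ 0 →
      x ^ m * y ^ n + y ^ m * z ^ n + z ^ m * x ^ n ≠ 0 := by
  rw [fermatLastTheoremFor_iff_of_odd (odd_expo hmn), ← exists_iff hmn]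
  push Not
  rfl

/-- Clearing denominators. -/
theorem exists_int_of_rat {m n : ℕ} {x y z : ℚ} (hx : x ≠ 0) (hy : y ≠ 0) (hz : z ≠ 0)
    (h : x ^ m * y ^ n + y ^ m * z ^ n + z ^ m * x ^ n = 0) :
    ∃ a b c : ℤ, a ≠ 0 ∧ b ≠ 0 ∧ c ≠ 0 ∧ a ^ m * b ^ n + b ^ m * c ^ n + c ^ m * a ^ n = 0 := by
  have key : ∀ q r s : ℚ, ((q.num * r.den * s.den : ℤ) : ℚ) = q.den * r.den * s.den * q := by
    intro q r s
    have h1 : (q.num : ℚ) = q.den * q := by
      rw [mul_comm]; exact (Rat.mul_den_eq_num q).symm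
    push_cast
    rw [h1]
    ring
  have key0 : ∀ q r s : ℚ, q ≠ 0 → q.num * r.den * s.den ≠ 0 := by
    intro q r s hq
    exact mul_ne_zero (mul_ne_zero (Rat.num_ne_zero.2 hq) (by exact_mod_cast r.den_nz))
      (by exact_mod_cast s.den_nz)
  refine ⟨x.num * y.den * z.den, y.num * z.den * x.den, z.num * x.den * y.den, key0 x y z hx,
    key0 y z x hy, key0 z x y hz, ?_⟩
  have h1 := key x y z
  have h2 := key y z x
  have h3 := key z x y
  rw [show (y.den : ℚ) * z.den * x.den = x.den * y.den * z.den by ring] at h2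
  rw [show (z.den : ℚ) * x.den * y.den = x.den * y.den * z.den by ring] at h3
  have h4 : (((x.num * y.den * z.den) ^ m * (y.num * z.den * x.den) ^ n +
      (y.num * z.den * x.den) ^ m * (z.num * x.den * y.den) ^ n +
      (z.num * x.den * y.den) ^ m * (x.num * y.den * z.den) ^ n : ℤ) : ℚ) = 0 := by
    rw [Int.cast_add, Int.cast_add, Int.cast_mul, Int.cast_mul, Int.cast_mul, Int.cast_pow,
      Int.cast_pow, Int.cast_pow, Int.cast_pow, Int.cast_pow, Int.cast_pow, h1, h2, h3, homog, h,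
      mul_zero]
  exact_mod_cast h4

end Fermat.Agent.Cor.Hurwitz
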