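import Fermat.Agent.S01
import Fermat.Agent.Corollaries.Hurwitz.Equiv
import Mathlib.LinearAlgebra.Projectivization.Basic

/-!
# The rational points of Hurwitz's curves and of the Klein quartic (helper56)

With Fermat's Last Theorem the reduction of `Hurwitz/Equiv.lean` gives, for ALL exponents:

* `ne_zero`: `x ^ m * y ^ n + y ^ m * z ^ n + z ^ m * x ^ n ≠ 0` for non-zero rational `x`, `y`, `z`
  and `3 ≤ m + n`;
* `exists_rat_iff`: there are non-zero rational solutions if and only if `m + n = 1` or `m = n = 1`;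
* `eq_zero_iff`: for `m`, `n` positive, `3 ≤ m + n`, the only rational points are the three
  coordinate points `(1 : 0 : 0)`, `(0 : 1 : 0)`, `(0 : 0 : 1)`;
* `klein_quartic`: the rational points of the Klein quartic `x³y + y³z + z³x = 0` (Hurwitz 1908);
* `pow_add_pow_add_pow_ne_zero`: `r ^ k + s ^ k + t ^ k ≠ 0` for rational `r s t = 1`, `k ≠ 0`.
-/

set_option autoImplicit false

namespace Fermat.Agent.Cor.Hurwitz

/-- Fermat's Last Theorem over `ℤ`, symmetric form, from `S01`. -/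
theorem pow_add_pow_add_pow_ne {n : ℕ} (hn : 3 ≤ n) {a b c : ℤ} (ha : a ≠ 0) (hb : b ≠ 0)
    (hc : c ≠ 0) : a ^ n + b ^ n + c ^ n ≠ 0 := by
  rcases Nat.even_or_odd n with h2 | h2
  · have h3 : 0 < a ^ n + b ^ n + c ^ n :=
      add_pos (add_pos (h2.pow_pos ha) (h2.pow_pos hb)) (h2.pow_pos hc)
    exact h3.ne'
  · intro h
    have h1 : FermatLastTheoremFor n := fun a b c ha hb hc =>
      S01.result n hn a b c (Nat.pos_of_ne_zero ha) (Nat.pos_of_ne_zero hb)
        (Nat.pos_of_ne_zero hc)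
    exact (fermatLastTheoremFor_iff_of_odd h2).1 h1 ⟨a, b, c, ha, hb, hc, h⟩

/-- **Hurwitz's equation has no solution in non-zero integers** for `3 ≤ m + n`. -/
theorem ne_zero_int {m n : ℕ} (h3 : 3 ≤ m + n) {x y z : ℤ} (hx : x ≠ 0) (hy : y ≠ 0)
    (hz : z ≠ 0) : x ^ m * y ^ n + y ^ m * z ^ n + z ^ m * x ^ n ≠ 0 := by
  intro h
  by_cases hmn : m.Coprime n
  · obtain ⟨u, v, w, hu, hv, hw, h1⟩ := exists_fermat hmn hx hy hz h
    exact pow_add_pow_add_pow_ne (three_le_expo h3) hu hv hw h1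
  · obtain ⟨a, ha⟩ := Nat.gcd_dvd_left m n
    obtain ⟨b, hb⟩ := Nat.gcd_dvd_right m n
    set g := m.gcd n with hg
    have hg0 : g ≠ 0 := by
      intro h0
      rw [h0, zero_mul] at ha hb
      omega
    have hg1 : g ≠ 1 := hmn
    have e : ∀ r s : ℤ, r ^ m * s ^ n = (r ^ a * s ^ b) ^ g := by
      intro r s
      rw [mul_pow, ← pow_mul, ← pow_mul, mul_comm a, mul_comm b, ← ha, ← hb]
    rw [e, e, e] at h
    have n1 : x ^ a * y ^ b ≠ 0 := mul_ne_zero (pow_ne_zero _ hx) (pow_ne_zero _ hy)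
    have n2 : y ^ a * z ^ b ≠ 0 := mul_ne_zero (pow_ne_zero _ hy) (pow_ne_zero _ hz)
    have n3 : z ^ a * x ^ b ≠ 0 := mul_ne_zero (pow_ne_zero _ hz) (pow_ne_zero _ hx)
    rcases Nat.even_or_odd g with h2 | h2
    · have h4 := add_pos (add_pos (h2.pow_pos n1) (h2.pow_pos n2)) (h2.pow_pos n3)
      exact h4.ne' h
    · have h5 : 3 ≤ g := by
        obtain ⟨k, hk⟩ := h2
        omega
      exact pow_add_pow_add_pow_ne h5 n1 n2 n3 h

/-- **Hurwitz's equation has no solution in non-zero rational numbers** for `3 ≤ m + n`. -/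
theorem ne_zero {m n : ℕ} (h3 : 3 ≤ m + n) {x y z : ℚ} (hx : x ≠ 0) (hy : y ≠ 0)
    (hz : z ≠ 0) : x ^ m * y ^ n + y ^ m * z ^ n + z ^ m * x ^ n ≠ 0 := by
  intro h
  obtain ⟨a, b, c, ha, hb, hc, h1⟩ := exists_int_of_rat hx hy hz h
  exact ne_zero_int h3 ha hb hc h1

/-- **All exponents**: `x ^ m * y ^ n + y ^ m * z ^ n + z ^ m * x ^ n = 0` has a solution in
non-zero rational numbers if and only if `{m, n} = {0, 1}` or `m = n = 1`. -/
theorem exists_rat_iff {m n : ℕ} :
    (∃ x y z : ℚ, x ≠ 0 ∧ y ≠ 0 ∧ z ≠ 0 ∧ x ^ m * y ^ n + y ^ m * z ^ n + z ^ m * x ^ n = 0) ↔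
      m + n = 1 ∨ (m = 1 ∧ n = 1) := by
  constructor
  · rintro ⟨x, y, z, hx, hy, hz, h⟩
    by_contra hc
    by_cases h3 : 3 ≤ m + n
    · exact ne_zero h3 hx hy hz h
    · have hmn : (m = 0 ∧ n = 0) ∨ (m = 2 ∧ n = 0) ∨ (m = 0 ∧ n = 2) := by omega
      have px := pow_pos (abs_pos.2 hx) 2
      have py := pow_pos (abs_pos.2 hy) 2
      have pz := pow_pos (abs_pos.2 hz) 2
      rw [sq_abs] at px py pz
      rcases hmn with ⟨rfl, rfl⟩ | ⟨rfl, rfl⟩ | ⟨rfl, rfl⟩
      · norm_num at h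
      · rw [pow_zero, pow_zero, pow_zero, mul_one, mul_one, mul_one] at h
        linarith
      · rw [pow_zero, pow_zero, pow_zero, one_mul, one_mul, one_mul] at h
        linarith
  · rintro (h | ⟨rfl, rfl⟩)
    · obtain ⟨rfl, rfl⟩ | ⟨rfl, rfl⟩ : (m = 1 ∧ n = 0) ∨ (m = 0 ∧ n = 1) := by omega
      · exact ⟨1, 1, -2, by norm_num, by norm_num, by norm_num, by norm_num⟩
      · exact ⟨1, 1, -2, by norm_num, by norm_num, by norm_num, by norm_num⟩
    · exact ⟨2, 2, -1, by norm_num, by norm_num, by norm_num, by norm_num⟩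

/-- **The rational points of Hurwitz's curves**: for positive `m`, `n` with `3 ≤ m + n` they are
`(1 : 0 : 0)`, `(0 : 1 : 0)` and `(0 : 0 : 1)`. -/
theorem eq_zero_iff {m n : ℕ} (hm : m ≠ 0) (hn : n ≠ 0) (h3 : 3 ≤ m + n) {x y z : ℚ} :
    x ^ m * y ^ n + y ^ m * z ^ n + z ^ m * x ^ n = 0 ↔
      (y = 0 ∧ z = 0) ∨ (z = 0 ∧ x = 0) ∨ (x = 0 ∧ y = 0) := by
  constructor
  · intro h
    have h1 : x = 0 ∨ y = 0 ∨ z = 0 := by
      by_contra hc
      push Not at hc
      exact ne_zero h3 hc.1 hc.2.1 hc.2.2 h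
    rcases h1 with rfl | rfl | rfl
    · rw [zero_pow hm, zero_pow hn, zero_mul, mul_zero, zero_add, add_zero, mul_eq_zero,
        pow_eq_zero_iff hm, pow_eq_zero_iff hn] at h
      tauto
    · rw [zero_pow hm, zero_pow hn, zero_mul, mul_zero, zero_add, zero_add, mul_eq_zero,
        pow_eq_zero_iff hm, pow_eq_zero_iff hn] at h
      tauto
    · rw [zero_pow hm, zero_pow hn, zero_mul, mul_zero, add_zero, add_zero, mul_eq_zero,
        pow_eq_zero_iff hm, pow_eq_zero_iff hn] at h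
      tauto
  · rintro (⟨rfl, rfl⟩ | ⟨rfl, rfl⟩ | ⟨rfl, rfl⟩) <;> simp [hm, hn]

/-- **The rational points of the Klein quartic** `x³y + y³z + z³x = 0` (Hurwitz 1908) are
`(1 : 0 : 0)`, `(0 : 1 : 0)` and `(0 : 0 : 1)`. -/
theorem klein_quartic {x y z : ℚ} :
    x ^ 3 * y + y ^ 3 * z + z ^ 3 * x = 0 ↔
      (y = 0 ∧ z = 0) ∨ (z = 0 ∧ x = 0) ∨ (x = 0 ∧ y = 0) := by
  have h := eq_zero_iff (m := 3) (n := 1) (by norm_num) (by norm_num) (by norm_num) (x := x)
    (y := y) (z := z)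
  rwa [pow_one, pow_one, pow_one] at h

/-- The only affine rational point of the Klein quartic in the chart `z = 1` is the origin. -/
theorem klein_quartic_affine {x y : ℚ} : x ^ 3 * y + y ^ 3 + x = 0 ↔ x = 0 ∧ y = 0 := by
  have h := klein_quartic (x := x) (y := y) (z := 1)
  rw [mul_one, one_pow, one_mul] at h
  rw [h]
  constructor
  · rintro (⟨_, h1⟩ | ⟨h1, _⟩ | h1)
    · exact absurd h1 one_ne_zero
    · exact absurd h1 one_ne_zero
    · exact h1
  · exact fun h1 => Or.inr (Or.inr h1)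

/-! ### The points of the projective curve -/

/-- The coordinate point `e i` of the projective plane over `ℚ`. -/
noncomputable def pt (i : Fin 3) : Projectivization ℚ (Fin 3 → ℚ) :=
  Projectivization.mk ℚ (Pi.single i 1) (by
    intro h
    have := congrFun h i
    simp at this)

theorem eq_pt_iff (P : Projectivization ℚ (Fin 3 → ℚ)) (i : Fin 3) :
    P = pt i ↔ ∀ j, j ≠ i → P.rep j = 0 := by
  constructor
  · rintro rfl j hj
    have h0 : (Pi.single i (1 : ℚ) : Fin 3 → ℚ) ≠ 0 := by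
      intro h
      have := congrFun h i
      simp at this
    obtain ⟨a, ha⟩ := Projectivization.exists_smul_eq_mk_rep ℚ _ h0
    have h1 := congrFun ha j
    rw [Pi.smul_apply, Pi.single_eq_of_ne hj, smul_zero] at h1
    exact h1.symm
  · intro h
    rw [← P.mk_rep, pt, Projectivization.mk_eq_mk_iff']
    refine ⟨P.rep i, ?_⟩
    funext j
    by_cases hj : j = i
    · subst hj
      simp
    · rw [Pi.smul_apply, Pi.single_eq_of_ne hj, smul_zero, h j hj]

/-- **The projective curve `x ^ m * y ^ n + y ^ m * z ^ n + z ^ m * x ^ n = 0`**, `m`, `n` positive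
and `3 ≤ m + n`, has exactly three rational points, the coordinate points. -/
theorem points_eq {m n : ℕ} (hm : m ≠ 0) (hn : n ≠ 0) (h3 : 3 ≤ m + n) :
    {P : Projectivization ℚ (Fin 3 → ℚ) | P.rep 0 ^ m * P.rep 1 ^ n + P.rep 1 ^ m * P.rep 2 ^ n +
      P.rep 2 ^ m * P.rep 0 ^ n = 0} = {pt 0, pt 1, pt 2} := by
  ext P
  rw [Set.mem_ofPred_eq, eq_zero_iff hm hn h3, Set.mem_insert_iff, Set.mem_insert_iff,
    Set.mem_singleton_iff, eq_pt_iff, eq_pt_iff, eq_pt_iff]
  simp only [Fin.forall_fin_succ, Fin.succ_zero_eq_one, Fin.succ_one_eq_two, Fin.isValue,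
    IsEmpty.forall_iff, ne_eq, one_ne_zero, zero_ne_one, not_true_eq_false, not_false_eq_true,
    forall_const, true_and, and_true, Fin.reduceEq]
  tauto

theorem pt_injective : Function.Injective pt := by
  intro i j h
  by_contra hij
  have h1 := (eq_pt_iff (pt i) j).1 h i hij
  have h2 : ∀ k, k ≠ i → (pt i).rep k = 0 := (eq_pt_iff (pt i) i).1 rfl
  refine (pt i).rep_nonzero (funext fun k => ?_)
  by_cases hk : k = i
  · rw [hk]; exact h1
  · exact h2 k hk

/-- The number of rational points of Hurwitz's curves is three. -/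
theorem ncard_points {m n : ℕ} (hm : m ≠ 0) (hn : n ≠ 0) (h3 : 3 ≤ m + n) :
    {P : Projectivization ℚ (Fin 3 → ℚ) | P.rep 0 ^ m * P.rep 1 ^ n + P.rep 1 ^ m * P.rep 2 ^ n +
      P.rep 2 ^ m * P.rep 0 ^ n = 0}.ncard = 3 := by
  rw [points_eq hm hn h3]
  have h1 : ({pt 0, pt 1, pt 2} : Set (Projectivization ℚ (Fin 3 → ℚ))) = Set.range pt := by
    ext P
    simp only [Set.mem_insert_iff, Set.mem_singleton_iff, Set.mem_range]
    constructor
    · rintro (rfl | rfl | rfl)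
      · exact ⟨0, rfl⟩
      · exact ⟨1, rfl⟩
      · exact ⟨2, rfl⟩
    · rintro ⟨i, rfl⟩
      fin_cases i
      · exact Or.inl rfl
      · exact Or.inr (Or.inl rfl)
      · exact Or.inr (Or.inr rfl)
  rw [h1, ← Set.image_univ, Set.ncard_image_of_injective _ pt_injective, Set.ncard_univ,
    Nat.card_eq_fintype_card, Fintype.card_fin]

/-- **The Klein quartic has exactly three rational points.** -/
theorem klein_quartic_ncard :
    {P : Projectivization ℚ (Fin 3 → ℚ) | P.rep 0 ^ 3 * P.rep 1 + P.rep 1 ^ 3 * P.rep 2 +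
      P.rep 2 ^ 3 * P.rep 0 = 0}.ncard = 3 := by
  have h := ncard_points (m := 3) (n := 1) (by norm_num) (by norm_num) (by norm_num)
  simpa only [pow_one] using h

/-! ### Numbers with product one -/

/-- The rational numbers `r`, `s`, `t` with `r * s * t = 1` never satisfy `r ^ k + s ^ k + t ^ k = 0`
(`k ≠ 0`). -/
theorem pow_add_pow_add_pow_ne_zero {r s t : ℚ} (h : r * s * t = 1) {k : ℕ} (hk : k ≠ 0) :
    r ^ k + s ^ k + t ^ k ≠ 0 := by
  have hr : r ≠ 0 := by rintro rfl; norm_num at h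
  have hs : s ≠ 0 := by rintro rfl; norm_num at h
  have ht : t ≠ 0 := by rintro rfl; norm_num at h
  intro h1
  -- `r = a / b`, `s = b / c`, `t = c / a` with `a = r s`, `b = s`, `c = 1`
  have h2 : (r * s) ^ (2 * k) * (1 : ℚ) ^ k + (1 : ℚ) ^ (2 * k) * s ^ k +
      s ^ (2 * k) * (r * s) ^ k = 0 := by
    have h3 : (r * s) ^ k * t ^ k = 1 := by rw [← mul_pow, h, one_pow]
    have h4 : (r * s) ^ k * s ^ k * (r ^ k + s ^ k + t ^ k) = 0 := by rw [h1, mul_zero]
    rw [one_pow, one_pow, pow_mul' (r * s), pow_mul' s, mul_pow r s] at *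
    linear_combination h4 - s ^ k * h3
  exact ne_zero (m := 2 * k) (n := k) (by omega) (mul_ne_zero hr hs) one_ne_zero hs h2

/-- `(a / b) ^ k + (b / c) ^ k + (c / a) ^ k ≠ 0` for non-zero rational numbers and every integer
`k ≠ 0`. -/
theorem div_zpow_add_ne_zero {a b c : ℚ} (ha : a ≠ 0) (hb : b ≠ 0) (hc : c ≠ 0) {k : ℤ}
    (hk : k ≠ 0) : (a / b) ^ k + (b / c) ^ k + (c / a) ^ k ≠ 0 := by
  obtain ⟨n, rfl | rfl⟩ := k.eq_nat_or_neg
  · have hn : n ≠ 0 := by simpa using hk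
    rw [zpow_natCast, zpow_natCast, zpow_natCast]
    exact pow_add_pow_add_pow_ne_zero (by field_simp) hn
  · have hn : n ≠ 0 := by simpa using hk
    rw [← inv_zpow', ← inv_zpow', ← inv_zpow', zpow_natCast, zpow_natCast, zpow_natCast]
    exact pow_add_pow_add_pow_ne_zero (by field_simp) hn

/-- If `r + s + t = 0`, more generally `r ^ k + s ^ k + t ^ k = 0` with `k ≠ 0`, for non-zero
rational numbers, then `r * s * t` is not a cube. -/
theorem mul_ne_cube {r s t q : ℚ} (hr : r ≠ 0) (hs : s ≠ 0) (ht : t ≠ 0) {k : ℕ} (hk : k ≠ 0)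
    (h : r ^ k + s ^ k + t ^ k = 0) : r * s * t ≠ q ^ 3 := by
  intro hq
  have hq0 : q ≠ 0 := by
    rintro rfl
    exact mul_ne_zero (mul_ne_zero hr hs) ht (by rw [hq]; norm_num)
  refine pow_add_pow_add_pow_ne_zero (r := r / q) (s := s / q) (t := t / q) (k := k) ?_ hk ?_
  · field_simp
    exact hq
  · rw [div_pow, div_pow, div_pow, ← add_div, ← add_div, h, zero_div]

end Fermat.Agent.Cor.Hurwitz
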